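/-
Row 37 (S43), block G1 (helper225): NodeForm (tube formula), definitions and leaves.

Chart `y` (`j` or `1/j`), `P₀` a place with `y(P₀) ∈ A`, `e = eps P₀ : BY → k` its class.
`InO e φ` : `φ ∈ k((q))` lies in the local ring `O_e = ρ(BY)_{ker e}`.

DAG.
  NodeForm   ⇐ chart (both charts) + `redDiv` bookkeeping
  chart      ⇐ NodeAbsPlace + NodeRing + NodeStruct + surjectivity of the reduction (S44.X.resField_FN)
  NodeStruct ⇐ NodeClass + `exists_unif'` (uniformisers `s_Q = t_e - t_e(Q)`, all with reduction `τ_e`)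
  NodeClass  ⇐ NodeClear + RegInt + QAY + `IsRed.unique`
  NodeClear  ⇐ NodeZeroLift + `exists_unif'` + `Tube.exists_fac`
-/
import Fermat.Agent.S43.G1.Contract
import Fermat.Agent.S37.Export
import Fermat.Agent.S44.X.Red.API
import Fermat.Agent.S44.X.Red.ResField

set_option autoImplicit false

noncomputable section

namespace Fermat.Agent.S43.G1.Form

open AlgebraicCurve ModularCurve Fermat.Agent.S24
open Fermat.Agent.S37 (Pl BY Reg Tube eps QAY LFAt HasIntExp rho resA val RegInt)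
open Fermat.Agent.S37.Tube (HE)
open Fermat.Agent.S44 (kA IsRed)
open Fermat.Agent.S18.Glue (divOf)

/-- `φ` lies in the local ring of `ρ(BY)` at the class `e`. -/
def InO (A : ValuationSubring Kbar) (N : ℕ) (y : FN N) (e : BY A N y → kA A)
    (φ : LaurentSeries (kA A)) : Prop :=
  ∃ (b s : BY A N y) (β σ : LaurentSeries (kA A)),
    HE A N b.1 β ∧ HE A N s.1 σ ∧ e s ≠ 0 ∧ φ * σ = β

/-- **ZL** (zeros of the reduction lift): `b ∈ BY` with nonzero reduction, `b(P) ∈ 𝔪_A`.  Then `b` has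
a zero in the residue class of `P`. -/
def NodeZeroLift : Prop :=
  ∀ (A : ValuationSubring Kbar) (N : ℕ) [NeZero N] (y : FN N), QAY A N y →
    ∀ (P : Pl N), Reg A N y P → ∀ (b : BY A N y) (β : LaurentSeries (kA A)), HE A N b.1 β → β ≠ 0 →
      eps A N y P b = 0 →
      ∃ P' : Pl N, Reg A N y P' ∧ eps A N y P' = eps A N y P ∧ 0 < P'.ord b.1

/-- **ABS** (a place from a factorisation). -/
def NodeAbsPlace : Prop :=
  ∀ (K F : Type) [Field K] [Field F] [Algebra K F] (O : Subring F),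
    (∀ a : K, algebraMap K F a ∈ O) → ∀ τ : F, τ ≠ 0 → τ ∈ O → τ⁻¹ ∉ O →
    (∀ x : F, x ≠ 0 → ∃ (n : ℤ) (ω : F), ω ∈ O ∧ ω⁻¹ ∈ O ∧ x = τ ^ n * ω) →
    ∃ v : Place K F, ∀ (x : F) (n : ℤ) (ω : F), ω ≠ 0 → ω ∈ O → ω⁻¹ ∈ O → x = τ ^ n * ω →
      v.ord x = n

/-- **RING**: `O_e` is a ring containing the constants, and `e` factors through it:
an element `ρ(t)`, `t ∈ BY`, `e(t) = 0`, is not invertible in `O_e`. -/
def NodeRing : Prop :=
  ∀ (A : ValuationSubring Kbar) (N : ℕ) [NeZero N] (y : FN N), QAY A N y →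
    ∀ (P : Pl N), Reg A N y P →
      (∀ a : kA A, InO A N y (eps A N y P) (algebraMap (kA A) (LaurentSeries (kA A)) a)) ∧
      (∀ φ ψ, InO A N y (eps A N y P) φ → InO A N y (eps A N y P) ψ →
        InO A N y (eps A N y P) (φ + ψ)) ∧
      (∀ φ ψ, InO A N y (eps A N y P) φ → InO A N y (eps A N y P) ψ →
        InO A N y (eps A N y P) (φ * ψ)) ∧
      (∀ φ, InO A N y (eps A N y P) φ → InO A N y (eps A N y P) (-φ)) ∧
      (∀ (t : BY A N y) (τ : LaurentSeries (kA A)), HE A N t.1 τ → InO A N y (eps A N y P) τ) ∧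
      (∀ (t : BY A N y) (τ : LaurentSeries (kA A)), HE A N t.1 τ → τ ≠ 0 →
        eps A N y P t = 0 → ¬ InO A N y (eps A N y P) τ⁻¹)

end Fermat.Agent.S43.G1.Form

end
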