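/-
Row 37 (S43), block G1, NodeForm, leaf ABS (helper11): a place from a factorisation.
-/
import Fermat.Agent.S43.G1.Form.Defs

set_option autoImplicit false

noncomputable section

namespace Fermat.Agent.S43.G1.Form

open AlgebraicCurve

theorem nodeAbsPlace : NodeAbsPlace := by
  intro K F _ _ _ O hconst τ hτ0 hτ hτi hfac
  classical
  -- powers of `τ`
  have hpow : ∀ n : ℕ, τ ^ n ∈ O := fun n => pow_mem hτ n
  have hzpow_nonneg : ∀ n : ℤ, 0 ≤ n → τ ^ n ∈ O := by
    intro n hn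
    obtain ⟨m, rfl⟩ := Int.eq_ofNat_of_zero_le hn
    rw [zpow_natCast]
    exact hpow m
  have hzpow_neg : ∀ n : ℤ, n < 0 → τ ^ n ∉ O := by
    intro n hn hmem
    apply hτi
    have e : τ⁻¹ = τ ^ n * τ ^ (-n - 1) := by
      rw [← zpow_add₀ hτ0, ← zpow_neg_one]
      congr 1
      ring
    rw [e]
    exact mul_mem hmem (hzpow_nonneg _ (by omega))
  -- the valuation ring
  let V : ValuationSubring F :=
    { O with
      mem_or_inv_mem' := by
        intro x
        rcases eq_or_ne x 0 with rfl | hx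
        · exact Or.inl O.zero_mem
        obtain ⟨n, ω, hω, hωi, rfl⟩ := hfac x hx
        rcases le_or_gt 0 n with hn | hn
        · exact Or.inl (mul_mem (hzpow_nonneg n hn) hω)
        · right
          rw [mul_inv, ← zpow_neg]
          exact mul_mem (hzpow_nonneg _ (by omega)) hωi }
  have hV : ∀ x : F, x ∈ V ↔ x ∈ O := fun _ => Iff.rfl
  -- exponents of elements of `O`
  have hexp : ∀ (n : ℤ) (ω : F), ω ∈ O → ω⁻¹ ∈ O → ω ≠ 0 → τ ^ n * ω ∈ O → 0 ≤ n := by
    intro n ω _ hωi hω0 hmem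
    by_contra hn
    rw [not_le] at hn
    apply hzpow_neg n hn
    have e : τ ^ n = τ ^ n * ω * ω⁻¹ := by
      rw [mul_assoc, mul_inv_cancel₀ hω0, mul_one]
    rw [e]
    exact mul_mem hmem hωi
  let π : V := ⟨τ, hτ⟩
  have hπ0 : π ≠ 0 := fun h => hτ0 (congrArg Subtype.val h)
  have hunit : ∀ x : V, IsUnit x ↔ (x : F)⁻¹ ∈ O ∧ (x : F) ≠ 0 := by
    intro x
    constructor
    · rintro ⟨u, rfl⟩
      have h1 : ((u : V) : F) * (((u⁻¹ : Vˣ) : V) : F) = 1 :=
        congrArg Subtype.val (Units.mul_inv u)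
      have h0 : ((u : V) : F) ≠ 0 := left_ne_zero_of_mul_eq_one h1
      refine ⟨?_, h0⟩
      rw [inv_eq_of_mul_eq_one_right h1]
      exact ((u⁻¹ : Vˣ) : V).2
    · rintro ⟨h1, h0⟩
      exact IsUnit.of_mul_eq_one ⟨(x : F)⁻¹, h1⟩ (Subtype.ext (mul_inv_cancel₀ h0))
  -- factorisation in `V`
  have hfacV : ∀ x : V, x ≠ 0 → ∃ (n : ℕ) (u : V), IsUnit u ∧ x = π ^ n * u := by
    intro x hx
    have hx0 : (x : F) ≠ 0 := fun h => hx (Subtype.ext h)
    obtain ⟨n, ω, hω, hωi, hxe⟩ := hfac x hx0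
    have hω0 : ω ≠ 0 := by
      rintro rfl
      rw [mul_zero] at hxe
      exact hx0 hxe
    have hn : 0 ≤ n := hexp n ω hω hωi hω0 (hxe ▸ x.2)
    obtain ⟨m, rfl⟩ := Int.eq_ofNat_of_zero_le hn
    refine ⟨m, ⟨ω, hω⟩, (hunit _).2 ⟨hωi, hω0⟩, Subtype.ext ?_⟩
    rw [hxe, zpow_natCast]
    rfl
  have hπu : ¬ IsUnit π := fun h => hτi ((hunit π).1 h).1
  have hπirr : Irreducible π := by
    refine ⟨hπu, ?_⟩
    intro a b hab
    have ha0 : a ≠ 0 := by
      rintro rfl
      rw [zero_mul] at hab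
      exact hπ0 hab
    have hb0 : b ≠ 0 := by
      rintro rfl
      rw [mul_zero] at hab
      exact hπ0 hab
    obtain ⟨i, u, hu, rfl⟩ := hfacV a ha0
    obtain ⟨j, w, hw, rfl⟩ := hfacV b hb0
    rcases Nat.eq_zero_or_pos i with rfl | hi
    · left
      rw [pow_zero, one_mul]
      exact hu
    rcases Nat.eq_zero_or_pos j with rfl | hj
    · right
      rw [pow_zero, one_mul]
      exact hw
    exfalso
    -- `π = π ^ (i + j) * unit`, `i + j ≥ 2`
    obtain ⟨k, hk⟩ : ∃ k, i + j = k + 2 := ⟨i + j - 2, by omega⟩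
    have e : π * 1 = π * (π * (π ^ k * (u * w))) := by
      rw [mul_one]
      calc π = π ^ i * u * (π ^ j * w) := hab
        _ = π ^ (i + j) * (u * w) := by rw [pow_add]; ring
        _ = π * (π * (π ^ k * (u * w))) := by rw [hk]; ring
    have e2 := mul_left_cancel₀ hπ0 e
    exact hπu (IsUnit.of_mul_eq_one _ e2.symm)
  have hdvr : IsDiscreteValuationRing V :=
    IsDiscreteValuationRing.ofHasUnitMulPowIrreducibleFactorization
      ⟨π, hπirr, fun {x} hx => by
        obtain ⟨n, u, hu, rfl⟩ := hfacV x hx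
        obtain ⟨u', rfl⟩ := hu
        exact ⟨n, u', rfl⟩⟩
  let v : Place K F :=
    { toValuationSubring := V
      algebraMap_mem' := hconst
      ne_top' := by
        intro h
        apply hτi
        have : τ⁻¹ ∈ V := by rw [h]; exact ValuationSubring.mem_top _
        exact this
      isPrincipalIdealRing' := inferInstance }
  refine ⟨v, ?_⟩
  intro x n ω hω0 hω hωi hx
  obtain ⟨u, hu⟩ := (hunit ⟨ω, hω⟩).2 ⟨hωi, hω0⟩
  have h := v.ord_unit_smul_zpow u (π := π) hπirr n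
  rw [hx, mul_comm]
  have e : ((u : V) : F) = ω := congrArg Subtype.val hu
  rw [← e]
  exact h

end Fermat.Agent.S43.G1.Form

end
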