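/-
Row 37 (S43), block G1 (helper225): NodeForm, the class lemma.
`classStmt` : a function with reduction `φ`, regular on the residue class `e`, has `φ ∈ O_e`.
-/
import Fermat.Agent.S43.G1.Form.Defs

set_option autoImplicit false
set_option linter.unusedSectionVars false

noncomputable section

namespace Fermat.Agent.S43.G1.Form

open AlgebraicCurve ModularCurve Fermat.Agent.S24 Fermat.Agent.GAL
open Fermat.Agent.S37
open Fermat.Agent.S37.Tube (HE evalF)
open Fermat.Agent.S44 (IsRed)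
open Fermat.Agent.S18.Glue (divOf)

variable {A : ValuationSubring Kbar} {N : ℕ} [NeZero N]

/-- `Tube.exists_unif` of S37, with `s P ∈ BY`. -/
theorem exists_unif' (y : FN N) (c : kA A) (hLF : ∀ P, Tube A N y c P → LFAt A N y P) :
    ∃ (τ : (BY A N y → kA A) → LaurentSeries (kA A)) (s : Pl N → FN N),
      ∀ P, Tube A N y c P →
        τ (eps A N y P) ≠ 0 ∧ HE A N (s P) (τ (eps A N y P)) ∧ s P ∈ BY A N y ∧ P.ord (s P) = 1 ∧
        ∀ P', Tube A N y c P' → P' ≠ P → P'.ord (s P) = 0 := by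
  classical
  have key : ∀ e : BY A N y → kA A, ∃ (t : FN N) (τ : LaurentSeries (kA A)),
      (∃ Q, Tube A N y c Q ∧ eps A N y Q = e) →
      t ∈ BY A N y ∧ HE A N t τ ∧ τ ≠ 0 ∧
      (∀ P, Tube A N y c P → eps A N y P = e → val P t ∈ A.nonunits) ∧
      ∀ a ∈ A.nonunits, ∀ P' : Pl N, Tube A N y c P' →
      0 < P'.ord (t - algebraMap Kbar (FN N) a) →
        P'.ord (t - algebraMap Kbar (FN N) a) = 1 ∧
        ∀ P'' : Pl N, Tube A N y c P'' →
          0 < P''.ord (t - algebraMap Kbar (FN N) a) → P'' = P' := by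
    intro e
    by_cases h : ∃ Q, Tube A N y c Q ∧ eps A N y Q = e
    · obtain ⟨Q, hQ, rfl⟩ := h
      obtain ⟨t, Y, ht, hY, hρ, hv, hu⟩ := hLF Q hQ
      rw [hQ.2] at hu
      refine ⟨t, rho A Y, fun _ => ⟨ht, ⟨Y, hY, rfl⟩, hρ, ?_, hu⟩⟩
      intro P hP he
      have h1 : resA A (val P t) = resA A (val Q t) := congrFun he ⟨t, ht⟩
      rw [resA_of_mem_nonunits hv] at h1
      exact (resA_eq_zero_iff (mem_of_reg hP.1 ht).2).1 h1
    · exact ⟨0, 0, fun h' => absurd h' h⟩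
  choose t τ H using key
  refine ⟨τ, fun P => t (eps A N y P) - algebraMap Kbar (FN N) (val P (t (eps A N y P))), ?_⟩
  intro P hP
  obtain ⟨ht, hE, hτ, hv, hu⟩ := H (eps A N y P) ⟨P, hP, rfl⟩
  have ha := hv P hP rfl
  have haA : val P (t (eps A N y P)) ∈ A := ValuationSubring.nonunits_subset ha
  have hs : HE A N (t (eps A N y P) - algebraMap Kbar (FN N) (val P (t (eps A N y P))))
      (τ (eps A N y P)) := by
    have := hE.sub (HE.const (N := N) haA)
    rwa [resA_of_mem_nonunits ha, HahnSeries.single_eq_zero, sub_zero] at this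
  have hs0 := hs.ne_zero hτ
  have hpos : 0 < P.ord (t (eps A N y P) - algebraMap Kbar (FN N) (val P (t (eps A N y P)))) :=
    (val_spec (mem_of_reg hP.1 ht).1).resolve_left fun h => hs0 (sub_eq_zero.2 h)
  obtain ⟨h1, h2⟩ := hu _ ha P hP hpos
  refine ⟨hτ, hs, sub_mem ht (algebraMap_mem_BY haA), h1, ?_⟩
  intro P' hP' hne
  have h3 : 0 ≤ P'.ord (t (eps A N y P) - algebraMap Kbar (FN N) (val P (t (eps A N y P)))) :=
    (mem_of_reg hP'.1 (sub_mem ht (algebraMap_mem_BY haA))).1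
  by_contra h4
  exact hne (h2 P' hP' (lt_of_le_of_ne h3 (Ne.symm h4)))

omit [NeZero N] in
theorem isRed_of_HE {f : FN N} {τ : LaurentSeries (kA A)} (h : HE A N f τ) (hτ : τ ≠ 0) :
    IsRed A f τ := by
  obtain ⟨Y, hY, rfl⟩ := h
  have h1 : E.incl A 1 ∈ modularFunctionFieldBar N := by rw [map_one]; exact one_mem _
  have hYm : E.incl A Y ∈ modularFunctionFieldBar N := by
    rw [show E.incl A Y = (f : LaurentSeries Kbar) from hY]; exact f.2
  refine ⟨1, Y, 1, hYm, h1, one_ne_zero, hτ, by rw [map_one]; exact one_ne_zero, ?_, ?_⟩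
  · have e1 : (⟨E.incl A 1, h1⟩ : FN N) = 1 := Subtype.ext (map_one _)
    have e2 : (⟨E.incl A Y, hYm⟩ : FN N) = f := Subtype.ext hY
    rw [e1, e2, map_one, one_mul, div_one]
  · rw [map_one, mul_one]

omit [NeZero N] in
theorem isRed_zpow {u : FN N} {ubar : LaurentSeries (kA A)} (hu : IsRed A u ubar) (n : ℤ) :
    IsRed A (u ^ n) (ubar ^ n) := by
  cases n with
  | ofNat n => simpa using hu.pow n
  | negSucc n =>
    rw [zpow_negSucc, zpow_negSucc]
    exact (hu.pow (n + 1)).inv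

omit [NeZero N] in
theorem isRed_prod {ι : Type*} (S : Finset ι) (g : ι → FN N) (γ : ι → LaurentSeries (kA A))
    (h : ∀ i ∈ S, IsRed A (g i) (γ i)) : IsRed A (∏ i ∈ S, g i) (∏ i ∈ S, γ i) := by
  classical
  induction S using Finset.induction_on with
  | empty => simpa using Fermat.Agent.S44.isRed_one
  | insert i S hi ih =>
    rw [Finset.prod_insert hi, Finset.prod_insert hi]
    exact (h i (Finset.mem_insert_self i S)).mul (ih fun j hj => h j (Finset.mem_insert_of_mem hj))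

/-- elements of `BY` are regular where `y` is -/
theorem ord_nonneg_of_mem_BY {y b : FN N} (hb : b ∈ BY A N y) (v : Pl N) (hv : 0 ≤ v.ord y) :
    0 ≤ v.ord b := by
  have hle : RY A N y ≤ v.toValuationSubring.toSubring := by
    unfold RY
    rw [Subring.closure_le]
    rintro x (⟨a, _, rfl⟩ | rfl)
    · exact v.algebraMap_mem' a
    · exact FF.mem_of_ord_nonneg v hv
  exact FF.ord_nonneg_of_mem v
    (mem_valuationSubring_of_isIntegral v.toValuationSubring (RY A N y) hle hb)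

/-- an element of `BY`, not vanishing at the class of `P₀`, vanishing at a given place outside the
class -/
theorem exists_fac' (hZL : NodeZeroLift) {y : FN N} (hy : Transcendental Kbar y) (hQ : QAY A N y)
    {P₀ : Pl N} (hP₀ : Reg A N y P₀)
    (hLF : ∀ P, Tube A N y (resA A (val P₀ y)) P → LFAt A N y P) (v : Pl N) (hv : 0 ≤ v.ord y)
    (hcl : ¬ (Reg A N y v ∧ eps A N y v = eps A N y P₀)) :
    ∃ g : BY A N y, eps A N y P₀ g ≠ 0 ∧ 0 < v.ord g.1 := by
  by_cases hT : Tube A N y (resA A (val P₀ y)) v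
  · obtain ⟨τ, s, H⟩ := exists_unif' y _ hLF
    obtain ⟨hτ, hE, hB, h1, h0⟩ := H v hT
    refine ⟨⟨s v, hB⟩, ?_, by show 0 < v.ord (s v); omega⟩
    intro hz
    obtain ⟨P', hP', he, hpos⟩ := hZL A N y hQ P₀ hP₀ ⟨s v, hB⟩ _ hE hτ hz
    have hT' : Tube A N y (resA A (val P₀ y)) P' := (Reg.tube hP₀).of_eps_eq hP' he.symm
    by_cases hPv : P' = v
    · subst hPv
      exact hcl ⟨hP', he⟩
    · have := h0 P' hT' hPv
      have hpos' : 0 < P'.ord (s v) := hpos
      omega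
  · obtain ⟨g, hg, hpos⟩ := Tube.exists_fac hy _ v hv hT
    have e : evalF A y g = Polynomial.aeval y (g.map A.subtype) := C0.eval₂_iotaF y g
    refine ⟨⟨Polynomial.aeval y (g.map A.subtype), aeval_mem_BY g⟩, ?_, by
      show 0 < v.ord (Polynomial.aeval y (g.map A.subtype)); rw [← e]; exact hpos⟩
    rw [eps_aeval hP₀]
    exact hg

/-- clearing the poles outside the class -/
theorem exists_clear' (hZL : NodeZeroLift) {y : FN N} (hy : Transcendental Kbar y) (hQ : QAY A N y)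
    {P₀ : Pl N} (hP₀ : Reg A N y P₀)
    (hLF : ∀ P, Tube A N y (resA A (val P₀ y)) P → LFAt A N y P) (f : FN N) (hf : f ≠ 0)
    (hreg : ∀ P, Reg A N y P → eps A N y P = eps A N y P₀ → 0 ≤ P.ord f) :
    ∃ s : BY A N y, eps A N y P₀ s ≠ 0 ∧ ∀ v : Pl N, 0 ≤ v.ord y → 0 ≤ v.ord (s.1 * f) := by
  classical
  have key : ∀ v : Pl N, ∃ g : BY A N y, 0 ≤ v.ord y →
      ¬ (Reg A N y v ∧ eps A N y v = eps A N y P₀) → eps A N y P₀ g ≠ 0 ∧ 0 < v.ord g.1 := by
    intro v
    by_cases h : 0 ≤ v.ord y ∧ ¬ (Reg A N y v ∧ eps A N y v = eps A N y P₀)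
    · obtain ⟨g, hg⟩ := exists_fac' hZL hy hQ hP₀ hLF v h.1 h.2
      exact ⟨g, fun _ _ => hg⟩
    · exact ⟨0, fun h1 h2 => absurd ⟨h1, h2⟩ h⟩
  choose gP hgP using key
  set T : Finset (Pl N) := (FF.finite_ord_ne_zero f).toFinset.filter
    (fun v => v.ord f < 0 ∧ 0 ≤ v.ord y) with hT
  have hmemT : ∀ v : Pl N, v ∈ T ↔ v.ord f < 0 ∧ 0 ≤ v.ord y := by
    intro v
    rw [hT, Finset.mem_filter, Set.Finite.mem_toFinset]
    constructor
    · exact fun h => h.2
    · exact fun h => ⟨ne_of_lt h.1, h⟩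
  have hT1 : ∀ v ∈ T, eps A N y P₀ (gP v) ≠ 0 ∧ 0 < v.ord (gP v).1 := by
    intro v hv
    refine hgP v ((hmemT v).1 hv).2 ?_
    rintro ⟨h1, h2⟩
    have := hreg v h1 h2
    have := ((hmemT v).1 hv).1
    omega
  have hne : ∀ g : BY A N y, eps A N y P₀ g ≠ 0 → g.1 ≠ 0 := by
    intro g hg h0
    apply hg
    have : g = 0 := Subtype.ext h0
    rw [this]
    exact map_zero (epsHom hP₀)
  have hprod : ∀ T' : Finset (Pl N), T' ⊆ T →
      eps A N y P₀ (∏ v ∈ T', gP v ^ (- v.ord f).toNat) ≠ 0 := by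
    intro T' hT'
    rw [← coe_epsHom hP₀, map_prod]
    refine Finset.prod_ne_zero_iff.2 fun v hv => ?_
    rw [map_pow]
    exact pow_ne_zero _ (hT1 v (hT' hv)).1
  refine ⟨∏ v ∈ T, gP v ^ (- v.ord f).toNat, hprod T (Finset.Subset.refl T), ?_⟩
  intro v hv
  rw [v.ord_mul (hne _ (hprod T (Finset.Subset.refl T))) hf]
  have h0 : 0 ≤ v.ord (∏ v ∈ T, gP v ^ (- v.ord f).toNat : BY A N y).1 :=
    ord_nonneg_of_mem_BY (Subtype.property _) v hv
  by_cases hvf : 0 ≤ v.ord f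
  · omega
  · have hvT : v ∈ T := (hmemT v).2 ⟨by omega, hv⟩
    rw [← Finset.mul_prod_erase T _ hvT]
    show 0 ≤ v.ord ((gP v).1 ^ (- v.ord f).toNat *
      (∏ w ∈ T.erase v, gP w ^ (- w.ord f).toNat : BY A N y).1) + v.ord f
    rw [v.ord_mul (pow_ne_zero _ (hne _ (hT1 v hvT).1))
      (hne _ (hprod _ (Finset.erase_subset v T))), FF.ord_pow]
    have h1 : 0 ≤ v.ord (∏ w ∈ T.erase v, gP w ^ (- w.ord f).toNat : BY A N y).1 :=
      ord_nonneg_of_mem_BY (Subtype.property _) v hv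
    have h2 := (hT1 v hvT).2
    have h3 : (((- v.ord f).toNat : ℕ) : ℤ) = - v.ord f := Int.toNat_of_nonneg (by omega)
    rw [h3]
    nlinarith

/-- **The class lemma.** -/
theorem classStmt (hZL : NodeZeroLift) {y : FN N} (hy : Transcendental Kbar y) (hQ : QAY A N y)
    (hR : RegInt Kbar (FN N)) {P₀ : Pl N} (hP₀ : Reg A N y P₀)
    (hLF : ∀ P, Tube A N y (resA A (val P₀ y)) P → LFAt A N y P) {f : FN N}
    {φ : LaurentSeries (kA A)} (hf : IsRed A f φ)
    (hreg : ∀ P, Reg A N y P → eps A N y P = eps A N y P₀ → 0 ≤ P.ord f) :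
    InO A N y (eps A N y P₀) φ := by
  obtain ⟨s, hs, hsreg⟩ := exists_clear' hZL hy hQ hP₀ hLF f hf.left_ne_zero hreg
  obtain ⟨Ys, hYs⟩ := hQ.1 s.1 s.2
  have hσ : rho A Ys ≠ 0 := by
    intro h0
    apply hs
    rw [eps_apply, resA_of_mem_nonunits (evB hQ s.2 hYs h0 hP₀)]
  have hEs : HE A N s.1 (rho A Ys) := ⟨Ys, hYs, rfl⟩
  have hs0 : s.1 ≠ 0 := hEs.ne_zero hσ
  have hint := hR y hy _ hsreg
  obtain ⟨c', z', Y', hc', hz, hz'B, hz'Y, hρ'⟩ := hQ.2 _ (mul_ne_zero hs0 hf.left_ne_zero) hint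
  have hEz : HE A N z' (rho A Y') := ⟨Y', hz'Y, rfl⟩
  have h1 : IsRed A (s.1 * f) (rho A Ys * φ) := (isRed_of_HE hEs hσ).mul hf
  have h2 : IsRed A (s.1 * f) (rho A Y') := by
    rw [hz]
    have := (Fermat.Agent.S44.isRed_algebraMap (A := A) (N := N) hc').mul (isRed_of_HE hEz hρ')
    rwa [one_mul] at this
  obtain ⟨a, _, hEq⟩ := h2.unique h1
  obtain ⟨α, rfl⟩ := IsLocalRing.residue_surjective a
  refine ⟨⟨algebraMap Kbar (FN N) α * z', mul_mem (algebraMap_mem_BY α.2) hz'B⟩, s, _, rho A Ys,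
    (HE.const α.2).mul hEz, hEs, hs, ?_⟩
  rw [mul_comm, hEq, HahnSeries.C_apply, resA_coe]

end Fermat.Agent.S43.G1.Form

end
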