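/-
Row 37 (S43), block G1 (helper225): NodeForm, the structure theorem
`ū = τ_e ^ (N_e u) * unit of O_e`.
-/
import Fermat.Agent.S43.G1.Form.Class

set_option autoImplicit false
set_option linter.unusedSectionVars false

noncomputable section

namespace Fermat.Agent.S43.G1.Form

open AlgebraicCurve ModularCurve Fermat.Agent.S24 Fermat.Agent.GAL
open Fermat.Agent.S37
open Fermat.Agent.S37.Tube (HE evalF)
open Fermat.Agent.S44 (IsRed)
open Fermat.Agent.S18.Glue (divOf)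

variable {A : ValuationSubring Kbar} {N : ℕ} [NeZero N]

open Classical in
/-- the degree of `div u` on the class of `P₀` -/
def clDeg (A : ValuationSubring Kbar) (N : ℕ) [NeZero N] (y : FN N) (P₀ : Pl N) (u : FN N) : ℤ :=
  ∑ P ∈ (divOf Kbar u).support.filter
    (fun P => Reg A N y P ∧ eps A N y P = eps A N y P₀), P.ord u

theorem struct (hZL : NodeZeroLift) {y : FN N} (hy : Transcendental Kbar y) (hQ : QAY A N y)
    (hR : RegInt Kbar (FN N)) {P₀ : Pl N} (hP₀ : Reg A N y P₀)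
    (hLF : ∀ P, Tube A N y (resA A (val P₀ y)) P → LFAt A N y P) :
    ∃ (t : BY A N y) (τ : LaurentSeries (kA A)), τ ≠ 0 ∧ HE A N t.1 τ ∧ eps A N y P₀ t = 0 ∧
      ∀ (u : FN N) (ubar : LaurentSeries (kA A)), IsRed A u ubar →
        InO A N y (eps A N y P₀) (ubar * τ ^ (- clDeg A N y P₀ u)) ∧
        InO A N y (eps A N y P₀) (ubar * τ ^ (- clDeg A N y P₀ u))⁻¹ := by
  classical
  obtain ⟨τ, s, H⟩ := exists_unif' y _ hLF
  have hT₀ := Reg.tube hP₀
  obtain ⟨hτ, hE, hB, h1, -⟩ := H P₀ hT₀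
  refine ⟨⟨s P₀, hB⟩, τ (eps A N y P₀), hτ, hE, ?_, ?_⟩
  · rw [eps_apply, val_of_pos (by show 0 < P₀.ord (s P₀); omega), resA_zero]
  intro u ubar hu
  have hu0 := hu.left_ne_zero
  set S : Finset (Pl N) := (divOf Kbar u).support.filter
    (fun P => Reg A N y P ∧ eps A N y P = eps A N y P₀) with hS
  have hmem : ∀ P, P ∈ S ↔ P.ord u ≠ 0 ∧ Reg A N y P ∧ eps A N y P = eps A N y P₀ := by
    intro P
    rw [hS, Finset.mem_filter, Finsupp.mem_support_iff]
    rfl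
  have hTube : ∀ P, Reg A N y P → eps A N y P = eps A N y P₀ →
      Tube A N y (resA A (val P₀ y)) P := fun P hP he => hT₀.of_eps_eq hP he.symm
  have hTS : ∀ Q ∈ S, Tube A N y (resA A (val P₀ y)) Q := fun Q hQ =>
    hTube Q ((hmem Q).1 hQ).2.1 ((hmem Q).1 hQ).2.2
  have hsne : ∀ Q ∈ S, s Q ≠ 0 := fun Q hQ => (H Q (hTS Q hQ)).2.1.ne_zero (H Q (hTS Q hQ)).1
  set f : FN N := u * ∏ Q ∈ S, s Q ^ (- Q.ord u) with hf
  have hpne : ∏ Q ∈ S, s Q ^ (- Q.ord u) ≠ 0 :=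
    Finset.prod_ne_zero_iff.2 fun Q hQ => zpow_ne_zero _ (hsne Q hQ)
  have hred : IsRed A f (ubar * τ (eps A N y P₀) ^ (- clDeg A N y P₀ u)) := by
    have h2 : IsRed A (∏ Q ∈ S, s Q ^ (- Q.ord u))
        (∏ Q ∈ S, τ (eps A N y P₀) ^ (- Q.ord u)) := by
      refine isRed_prod S _ _ fun Q hQ => isRed_zpow ?_ _
      have h3 := H Q (hTS Q hQ)
      rw [((hmem Q).1 hQ).2.2] at h3
      exact isRed_of_HE h3.2.1 h3.1
    rw [Tube.prod_zpow_sum S _ hτ, Finset.sum_neg_distrib] at h2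
    exact hu.mul h2
  have hord : ∀ P, Reg A N y P → eps A N y P = eps A N y P₀ → P.ord f = 0 := by
    intro P hP he
    rw [hf, P.ord_mul hu0 hpne, Tube.ord_prod P S _ fun Q hQ => zpow_ne_zero _ (hsne Q hQ)]
    have h4 : ∀ Q ∈ S, P.ord (s Q ^ (- Q.ord u)) = if Q = P then - P.ord u else 0 := by
      intro Q hQ
      rw [P.ord_zpow]
      split_ifs with h
      · subst h
        rw [(H Q (hTS Q hQ)).2.2.2.1, mul_one]
      · rw [(H Q (hTS Q hQ)).2.2.2.2 P (hTube P hP he) (Ne.symm h), mul_zero]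
    rw [Finset.sum_congr rfl h4, Finset.sum_ite_eq' S P]
    split_ifs with h
    · omega
    · have : P.ord u = 0 := by
        by_contra h0
        exact h ((hmem P).2 ⟨h0, hP, he⟩)
      omega
  refine ⟨classStmt hZL hy hQ hR hP₀ hLF hred fun P hP he => (hord P hP he).ge,
    classStmt hZL hy hQ hR hP₀ hLF hred.inv fun P hP he => ?_⟩
  rw [P.ord_inv, hord P hP he]
  rfl

end Fermat.Agent.S43.G1.Form

end
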