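/-
Row 37 (S43), block G1 (helper225): NodeForm from the leaves.
-/
import Fermat.Agent.S43.G1.Form.Struct
import Fermat.Agent.S44.X.Red.Good

set_option autoImplicit false
set_option linter.unusedSectionVars false

noncomputable section

namespace Fermat.Agent.S43.G1.Form

open AlgebraicCurve ModularCurve Fermat.Agent.S24 Fermat.Agent.GAL
open Fermat.Agent.S37
open Fermat.Agent.S37.Tube (HE evalF)
open Fermat.Agent.S44 (IsRed Fk)
open Fermat.Agent.S18.Glue (divOf)

variable {A : ValuationSubring Kbar} {N : ℕ} [NeZero N]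

theorem mem_Fk_of_isRed {q : ℕ} (hq : q.Prime) (hA : A.LiesOverPrime q) (hqN : ¬ q ∣ N)
    {u : FN N} {φ : LaurentSeries (kA A)} (h : IsRed A u φ) :
    φ ∈ modularFunctionFieldFullC (kA A) N := by
  obtain ⟨w, hw⟩ := Fermat.Agent.S44.X.exists_isRed_good hq hqN A hA u h.left_ne_zero
  obtain ⟨a, _, e⟩ := hw.unique h
  rw [e, HahnSeries.C_apply, ← C0.algebraMap_eq_single]
  exact mul_mem ((modularFunctionFieldFullC (kA A) N).algebraMap_mem a) w.2

theorem exists_isRed_of_mem {q : ℕ} (hq : q.Prime) (hA : A.LiesOverPrime q) (hqN : ¬ q ∣ N)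
    (x : Fk A N) (hx : x ≠ 0) : ∃ u : FN N, IsRed A u (x : LaurentSeries (kA A)) := by
  have h : (x : LaurentSeries (kA A)) ∈
      Fermat.Agent.S28.Export.resField A (modularFunctionFieldBar N) := by
    rw [Fermat.Agent.S44.X.resField_FN hq hA hqN]
    exact x.2
  obtain ⟨f, hf, hr⟩ := h
  refine ⟨⟨f, hf⟩, Fermat.Agent.S44.isRed_of_red hq hA (fun h0 => hx (Subtype.ext h0))
    one_ne_zero ?_⟩
  rw [one_smul]
  exact hr

theorem chart (hZL : NodeZeroLift) (hAbs : NodeAbsPlace) (hRing : NodeRing) {q : ℕ}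
    (hq : q.Prime) (hA : A.LiesOverPrime q) (hqN : ¬ q ∣ N)
    {y : FN N} (hy : Transcendental Kbar y) (hQ : QAY A N y)
    (hR : RegInt Kbar (FN N)) {P₀ : Pl N} (hP₀ : Reg A N y P₀)
    (hLF : ∀ P, Tube A N y (resA A (val P₀ y)) P → LFAt A N y P) :
    ∃ v : Place (kA A) (Fk A N), ∀ (u : FN N) (ubar : Fk A N),
      IsRed A u (ubar : LaurentSeries (kA A)) → v.ord ubar = clDeg A N y P₀ u := by
  obtain ⟨t, τ, hτ, hE, het, hstr⟩ := struct hZL hy hQ hR hP₀ hLF
  obtain ⟨r1, r2, r3, r4, r5, r6⟩ := hRing A N y hQ P₀ hP₀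
  let O : Subring (Fk A N) :=
    { carrier := {x | InO A N y (eps A N y P₀) (x : LaurentSeries (kA A))}
      mul_mem' := fun ha hb => r3 _ _ ha hb
      one_mem' := by
        have := r1 1
        rwa [map_one] at this
      add_mem' := fun ha hb => r2 _ _ ha hb
      zero_mem' := by
        have := r1 0
        rwa [map_zero] at this
      neg_mem' := fun ha => r4 _ ha }
  have hτF : τ ∈ modularFunctionFieldFullC (kA A) N :=
    mem_Fk_of_isRed hq hA hqN (isRed_of_HE hE hτ)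
  set τ' : Fk A N := ⟨τ, hτF⟩ with hτ'
  have hτ'0 : τ' ≠ 0 := fun h0 => hτ (congrArg Subtype.val h0)
  have hcoe : ∀ (x : Fk A N) (n : ℤ),
      ((x * τ' ^ n : Fk A N) : LaurentSeries (kA A)) = (x : LaurentSeries (kA A)) * τ ^ n := by
    intro x n
    push_cast
    rfl
  have hmem : ∀ (u : FN N) (x : Fk A N), IsRed A u (x : LaurentSeries (kA A)) →
      x * τ' ^ (- clDeg A N y P₀ u) ∈ O ∧ (x * τ' ^ (- clDeg A N y P₀ u))⁻¹ ∈ O ∧
      x = τ' ^ (clDeg A N y P₀ u) * (x * τ' ^ (- clDeg A N y P₀ u)) := by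
    intro u x hu
    obtain ⟨h1, h2⟩ := hstr u x hu
    refine ⟨?_, ?_, ?_⟩
    · show InO A N y (eps A N y P₀) _
      rw [hcoe]
      exact h1
    · show InO A N y (eps A N y P₀) ((_ : Fk A N) : LaurentSeries (kA A))
      rw [IntermediateField.coe_inv, hcoe]
      exact h2
    · rw [zpow_neg]
      field_simp
  obtain ⟨v, hv⟩ := hAbs (kA A) (Fk A N) O (fun a => r1 a) τ' hτ'0 (r5 t τ hE)
    (fun h => r6 t τ hE hτ het (by
      have h' : InO A N y (eps A N y P₀) ((τ'⁻¹ : Fk A N) : LaurentSeries (kA A)) := h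
      rwa [IntermediateField.coe_inv] at h'))
    (by
      intro x hx
      obtain ⟨u, hu⟩ := exists_isRed_of_mem hq hA hqN x hx
      exact ⟨_, _, hmem u x hu⟩)
  refine ⟨v, fun u ubar hu => ?_⟩
  obtain ⟨h1, h2, h3⟩ := hmem u ubar hu
  have hu0 : ubar ≠ 0 := fun h0 => hu.ne_zero (by rw [h0]; rfl)
  exact hv ubar _ _ (mul_ne_zero hu0 (zpow_ne_zero _ hτ'0)) h1 h2 h3

theorem nodeForm_of (hZL : NodeZeroLift) (hAbs : NodeAbsPlace) (hRing : NodeRing) : NodeForm := by
  classical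
  intro A M _ q hq hA hqM hG P
  haveI : Fact q.Prime := ⟨hq⟩
  obtain ⟨hQF, hQI⟩ := final_qa A M q hA hqM
  have hLF := Export.lf A M q hA hqM hG
  have hR := final_regInt M
  by_cases hP : InFin A M P
  · obtain ⟨v, hv⟩ := chart hZL hAbs hRing hq hA hqM (Formal.transcendental_jF M) hQF hR
      (P₀ := P) hP (fun P' hP' => hLF.1 P' hP'.1)
    refine ⟨v, fun u ubar _ hu => ?_⟩
    rw [hv u ubar hu, redDiv_apply, C0.mapDomain_apply_eq_sum_filter]
    unfold clDeg
    refine Finset.sum_congr (Finset.filter_congr fun P' _ => ?_) fun _ _ => rfl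
    rw [red_eq_inl_eps hP]
    constructor
    · intro h
      have hP' : InFin A M P' := by
        by_contra hP'
        rw [red_eq_inr_eps hP'] at h
        exact absurd h (by simp)
      rw [red_eq_inl_eps hP'] at h
      exact ⟨hP', Sum.inl.inj h⟩
    · rintro ⟨hP', he⟩
      rw [red_eq_inl_eps hP', he]
  · have hT := (not_inFin_iff P).mp hP
    obtain ⟨v, hv⟩ := chart hZL hAbs hRing hq hA hqM
      (FF.transcendental_inv (Formal.transcendental_jF M)) hQI hR
      (P₀ := P) hT.1 (fun P' hP' => hLF.2 P' (by rwa [hT.2] at hP'))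
    refine ⟨v, fun u ubar _ hu => ?_⟩
    rw [hv u ubar hu, redDiv_apply, C0.mapDomain_apply_eq_sum_filter]
    unfold clDeg
    refine Finset.sum_congr (Finset.filter_congr fun P' _ => ?_) fun _ _ => rfl
    rw [red_eq_inr_eps hP]
    constructor
    · intro h
      have hP' : ¬ InFin A M P' := by
        intro hP'
        rw [red_eq_inl_eps hP'] at h
        exact absurd h (by simp)
      rw [red_eq_inr_eps hP'] at h
      exact ⟨((not_inFin_iff P').mp hP').1, Sum.inr.inj h⟩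
    · rintro ⟨hP', he⟩
      have hT' : Tube A M (jF M)⁻¹ 0 P' := hT.of_eps_eq hP' he.symm
      rw [red_eq_inr_eps ((not_inFin_iff P').mpr hT'), he]

end Fermat.Agent.S43.G1.Form

end
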