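/-
Row 37 (S43), block G1, NodeForm, leaf RING (helper11): `O_e` is a ring containing the constants and `ρ(BY)`,
and `ρ(t)`, `e(t) = 0`, is not invertible in it.
-/
import Fermat.Agent.S43.G1.Form.Defs

set_option autoImplicit false

noncomputable section

namespace Fermat.Agent.S43.G1.Form

open AlgebraicCurve ModularCurve Fermat.Agent.S24
open Fermat.Agent.S37 (Pl BY Reg Tube eps QAY LFAt HasIntExp rho resA val RegInt epsHom)
open Fermat.Agent.S37.Tube (HE)
open Fermat.Agent.S44 (kA IsRed)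

theorem nodeRing : NodeRing := by
  intro A N _ y hQ P hP
  have hmul : ∀ s s' : BY A N y, eps A N y P (s * s') = eps A N y P s * eps A N y P s' :=
    fun s s' => map_mul (epsHom hP) s s'
  have hone : eps A N y P 1 = 1 := map_one (epsHom hP)
  refine ⟨?_, ?_, ?_, ?_, ?_, ?_⟩
  · intro a
    obtain ⟨a', ha', rfl⟩ := Fermat.Agent.S37.exists_mem_resA_eq A a
    refine ⟨⟨algebraMap Kbar (FN N) a', Fermat.Agent.S37.algebraMap_mem_BY ha'⟩, 1, _, 1,
      HE.const ha', HE.one, ?_, ?_⟩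
    · rw [hone]; exact one_ne_zero
    · rw [mul_one, algebraMap_laurentSeries_eq_single]
  · rintro φ ψ ⟨b, s, β, σ, hb, hs, hes, h1⟩ ⟨b', s', β', σ', hb', hs', hes', h2⟩
    refine ⟨b * s' + b' * s, s * s', β * σ' + β' * σ, σ * σ', (hb.mul hs').add (hb'.mul hs),
      hs.mul hs', ?_, ?_⟩
    · rw [hmul]; exact mul_ne_zero hes hes'
    · rw [← h1, ← h2]; ring
  · rintro φ ψ ⟨b, s, β, σ, hb, hs, hes, h1⟩ ⟨b', s', β', σ', hb', hs', hes', h2⟩
    refine ⟨b * b', s * s', β * β', σ * σ', hb.mul hb', hs.mul hs', ?_, ?_⟩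
    · rw [hmul]; exact mul_ne_zero hes hes'
    · rw [← h1, ← h2]; ring
  · rintro φ ⟨b, s, β, σ, hb, hs, hes, h1⟩
    refine ⟨0 - b, s, 0 - β, σ, ?_, hs, hes, ?_⟩
    · have h0 : HE A N (0 : FN N) 0 := ⟨0, Fermat.Agent.S37.HasIntExp.zero, map_zero _⟩
      exact h0.sub hb
    · rw [← h1]; ring
  · intro t τ ht
    refine ⟨t, 1, τ, 1, ht, HE.one, ?_, mul_one _⟩
    rw [hone]; exact one_ne_zero
  · rintro t τ ht hτ het ⟨b, s, β, σ, hb, hs, hes, h1⟩
    apply hes
    have h2 : σ = β * τ := by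
      rw [← h1, mul_comm τ⁻¹ σ, mul_assoc, inv_mul_cancel₀ hτ, mul_one]
    obtain ⟨Z, hZ, hZ0⟩ := hs.sub (hb.mul ht)
    rw [h2, sub_self] at hZ0
    have h3 : val P (s.1 - b.1 * t.1) ∈ A.nonunits :=
      Fermat.Agent.S37.evB hQ (sub_mem s.2 (mul_mem b.2 t.2)) hZ hZ0 hP
    have h4 : eps A N y P (s - b * t) = 0 := Fermat.Agent.S37.resA_of_mem_nonunits h3
    have h5 : eps A N y P (s - b * t) = eps A N y P s - eps A N y P b * eps A N y P t := by
      rw [← hmul]
      exact map_sub (epsHom hP) s (b * t)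
    rw [h5, het, mul_zero, sub_zero] at h4
    exact h4

end Fermat.Agent.S43.G1.Form

end
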