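/-
Row 37 (S43), block G1, NodeForm, leaf ZL (helper11): zeros of the reduction lift.
`b ∈ BY` with nonzero reduction and `b(P) ∈ 𝔪_A` has a zero in the residue class of `P`.

Proof.  Otherwise choose for every zero `Q` of `b` (where `y` is regular) an element `w_Q ∈ BY` vanishing at `Q` with
`w_Q(P) ∉ 𝔪_A`; `W = ∏ w_Q ^ ord_Q b`; `W / b` is integral over `ℚ̄[y]`, so `W / b = c z'` with `z' ∈ BY` of nonzero
reduction; by the Gauss lemma `c` is a unit of `A`, and `W(P) = c b(P) z'(P) ∈ 𝔪_A`: contradiction.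
-/
import Fermat.Agent.S43.G1.Form.Defs

set_option autoImplicit false

noncomputable section

namespace Fermat.Agent.S43.G1.Form

open AlgebraicCurve ModularCurve Fermat.Agent.S24 Fermat.Agent.S37
open Fermat.Agent.S37.Tube (HE)
open Fermat.Agent.S18.Glue (divOf)

/-- `RegInt` without the transcendence hypothesis (same proof). -/
theorem zl_regInt {N : ℕ} [NeZero N] (x z : FN N)
    (hz : ∀ v : Pl N, 0 ≤ v.ord x → 0 ≤ v.ord z) : IsIntegral (Algebra.adjoin Kbar {x}) z := by
  by_contra hcon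
  have hz' : z ∉ (integralClosure (Algebra.adjoin Kbar {x}) (FN N)).toSubring := hcon
  have : IsIntegrallyClosedIn (integralClosure (Algebra.adjoin Kbar {x}) (FN N)).toSubring (FN N) :=
    inferInstanceAs (IsIntegrallyClosedIn (integralClosure (Algebra.adjoin Kbar {x}) (FN N)) (FN N))
  obtain ⟨V, hle, hV⟩ := Subring.exists_le_valuationSubring_of_isIntegrallyClosedIn hz'
  have hA : ∀ a ∈ Algebra.adjoin Kbar {x}, a ∈ V := by
    intro a ha
    apply hle
    exact (integralClosure (Algebra.adjoin Kbar {x}) (FN N)).algebraMap_mem ⟨a, ha⟩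
  have hK : ∀ a : Kbar, algebraMap Kbar (FN N) a ∈ V := fun a => hA _ (Subalgebra.algebraMap_mem _ a)
  have hne : V ≠ ⊤ := by
    rintro rfl
    exact hV (ValuationSubring.mem_top z)
  let v : Pl N := RegIntAux.placeOfValuationSubring V hK hne
  have hx : 0 ≤ v.ord x := FF.ord_nonneg_of_mem v (hA x (Algebra.self_mem_adjoin_singleton Kbar x))
  exact hV (FF.mem_of_ord_nonneg v (hz v hx))

/-- elements of `BY` are regular where `y` is -/
theorem zl_ord_nonneg {A : ValuationSubring Kbar} {N : ℕ} {y b : FN N} (hb : b ∈ BY A N y)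
    (v : Pl N) (hv : 0 ≤ v.ord y) : 0 ≤ v.ord b := by
  have hle : RY A N y ≤ v.toValuationSubring.toSubring := by
    unfold RY
    rw [Subring.closure_le]
    rintro x (⟨a, _, rfl⟩ | rfl)
    · exact v.algebraMap_mem' a
    · exact FF.mem_of_ord_nonneg v hv
  exact FF.ord_nonneg_of_mem v
    (mem_valuationSubring_of_isIntegral v.toValuationSubring (RY A N y) hle hb)

theorem nodeZeroLift : NodeZeroLift := by
  intro A N _ y hQ P hP b β hb hβ heb
  classical
  by_contra hcon
  have hcon' : ∀ P' : Pl N, Reg A N y P' → 0 < P'.ord b.1 → eps A N y P' ≠ eps A N y P :=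
    fun P' h1 h2 h3 => hcon ⟨P', h1, h3, h2⟩
  have hb0 : b.1 ≠ 0 := hb.ne_zero hβ
  have hmul : ∀ s s' : BY A N y, eps A N y P (s * s') = eps A N y P s * eps A N y P s' :=
    fun s s' => map_mul (epsHom hP) s s'
  have hsub : ∀ s s' : BY A N y, eps A N y P (s - s') = eps A N y P s - eps A N y P s' :=
    fun s s' => map_sub (epsHom hP) s s'
  have hone : eps A N y P 1 = 1 := map_one (epsHom hP)
  have hzero : eps A N y P 0 = 0 := map_zero (epsHom hP)
  -- the zeros
  set Z : Finset (Pl N) :=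
    (divOf Kbar b.1).support.filter fun Q => 0 < Q.ord b.1 ∧ 0 ≤ Q.ord y with hZdef
  have hZ : ∀ Q, Q ∈ Z ↔ 0 < Q.ord b.1 ∧ 0 ≤ Q.ord y := by
    intro Q
    rw [hZdef, Finset.mem_filter, Finsupp.mem_support_iff]
    constructor
    · exact fun h => h.2
    · intro h
      refine ⟨?_, h⟩
      rw [Fermat.Agent.S18.Glue.divOf_apply]
      exact h.1.ne'
  -- the factors
  have hex : ∀ Q : Pl N, ∃ w : BY A N y, Q ∈ Z → 0 < Q.ord w.1 ∧ eps A N y P w ≠ 0 := by
    intro Q
    by_cases hQZ : Q ∈ Z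
    swap
    · exact ⟨0, fun h => absurd h hQZ⟩
    obtain ⟨h1, h2⟩ := (hZ Q).1 hQZ
    by_cases hQr : Reg A N y Q
    · obtain ⟨t, ht⟩ := Function.ne_iff.1 (hcon' Q hQr h1)
      obtain ⟨h3, h4⟩ := mem_of_reg hQr t.2
      set cst : BY A N y := ⟨algebraMap Kbar (FN N) (val Q t.1), algebraMap_mem_BY h4⟩ with hcst
      have he : eps A N y P (t - cst) ≠ 0 := by
        rw [hsub, hcst, eps_const h4]
        intro h0
        exact ht (sub_eq_zero.1 h0).symm
      refine ⟨t - cst, fun _ => ⟨?_, he⟩⟩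
      have hv : val Q (t - cst).1 = 0 := by
        show val Q (t.1 - algebraMap Kbar (FN N) (val Q t.1)) = 0
        rw [val_sub h3 (ord_algebraMap_nonneg _), val_algebraMap, sub_self]
      have ho : 0 ≤ Q.ord (t - cst).1 := ord_sub_nonneg h3 (ord_algebraMap_nonneg _)
      rcases (val_eq_zero_iff ho).1 hv with h0 | h0
      · exfalso
        apply he
        rw [show t - cst = 0 from Subtype.ext h0, hzero]
      · exact h0
    · have h3 : val Q y ∉ A := fun h => hQr ⟨h2, h⟩
      have h0 : val Q y ≠ 0 := fun h => h3 (h ▸ A.zero_mem)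
      have h4 : (val Q y)⁻¹ ∈ A.nonunits := by
        rw [ValuationSubring.mem_nonunits_iff, map_inv₀]
        rw [← ValuationSubring.valuation_le_one_iff, not_le] at h3
        exact inv_lt_one_of_one_lt₀ h3
      set cst : BY A N y :=
        ⟨algebraMap Kbar (FN N) (val Q y)⁻¹, algebraMap_mem_BY (A.nonunits_subset h4)⟩ with hcst
      set yy : BY A N y := ⟨y, self_mem_BY⟩ with hyy
      have he : eps A N y P (1 - cst * yy) ≠ 0 := by
        rw [hsub, hmul, hone, hcst, eps_const (A.nonunits_subset h4), resA_of_mem_nonunits h4,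
          zero_mul, sub_zero]
        exact one_ne_zero
      refine ⟨1 - cst * yy, fun _ => ⟨?_, he⟩⟩
      have ho' : 0 ≤ Q.ord (algebraMap Kbar (FN N) (val Q y)⁻¹ * y) :=
        ord_mul_nonneg (ord_algebraMap_nonneg _) h2
      have hv : val Q (1 - cst * yy).1 = 0 := by
        show val Q (1 - algebraMap Kbar (FN N) (val Q y)⁻¹ * y) = 0
        rw [val_sub (by rw [Place.ord_one]) ho', val_mul (ord_algebraMap_nonneg _) h2,
          val_algebraMap, val_one, inv_mul_cancel₀ h0, sub_self]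
      have ho : 0 ≤ Q.ord (1 - cst * yy).1 :=
        ord_sub_nonneg (f := (1 : FN N)) (by rw [Place.ord_one]) ho'
      rcases (val_eq_zero_iff ho).1 hv with h0' | h0'
      · exfalso
        apply he
        rw [show 1 - cst * yy = 0 from Subtype.ext h0', hzero]
      · exact h0'
  choose w hw using hex
  let e : Pl N → ℕ := fun Q => (Q.ord b.1).toNat
  set W : BY A N y := ∏ Q ∈ Z, w Q ^ e Q with hW
  have heW : eps A N y P W ≠ 0 := by
    have : eps A N y P W = ∏ Q ∈ Z, eps A N y P (w Q) ^ e Q := by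
      show epsHom hP W = _
      rw [hW, map_prod]
      exact Finset.prod_congr rfl fun Q _ => map_pow _ _ _
    rw [this]
    exact Finset.prod_ne_zero_iff.2 fun Q hQ => pow_ne_zero _ (hw Q hQ).2
  have hW0 : W.1 ≠ 0 := by
    intro h0
    apply heW
    rw [show W = 0 from Subtype.ext h0, hzero]
  -- `W / b` is regular where `y` is
  have hreg : ∀ v : Pl N, 0 ≤ v.ord y → 0 ≤ v.ord (W.1 / b.1) := by
    intro v hv
    have hbv : 0 ≤ v.ord b.1 := zl_ord_nonneg b.2 v hv
    by_cases hvZ : v ∈ Z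
    · have hsplit : W = w v ^ e v * ∏ Q ∈ Z.erase v, w Q ^ e Q := by
        rw [hW, Finset.mul_prod_erase Z (fun Q => w Q ^ e Q) hvZ]
      have hrest : 0 ≤ v.ord (∏ Q ∈ Z.erase v, w Q ^ e Q : BY A N y).1 :=
        zl_ord_nonneg (∏ Q ∈ Z.erase v, w Q ^ e Q : BY A N y).2 v hv
      have hpos := (hw v hvZ).1
      have hw0 : (w v).1 ≠ 0 := by
        intro h0
        rw [h0, Place.ord_zero] at hpos
        exact lt_irrefl _ hpos
      have hmain : 0 ≤ v.ord ((w v).1 ^ e v / b.1) := by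
        rw [div_eq_mul_inv, Place.ord_mul v (pow_ne_zero _ hw0) (inv_ne_zero hb0), Place.ord_inv,
          ← zpow_natCast, Place.ord_zpow]
        have he : ((e v : ℕ) : ℤ) = v.ord b.1 := Int.toNat_of_nonneg hbv
        rw [he]
        nlinarith
      have e3 : W.1 / b.1 = ((w v).1 ^ e v / b.1) * (∏ Q ∈ Z.erase v, w Q ^ e Q : BY A N y).1 := by
        rw [hsplit]
        show ((w v).1 ^ e v * (∏ Q ∈ Z.erase v, w Q ^ e Q : BY A N y).1) / b.1 = _
        ring
      rw [e3]
      exact ord_mul_nonneg hmain hrest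
    · have h0 : v.ord b.1 = 0 := by
        by_contra hne
        exact hvZ ((hZ v).2 ⟨lt_of_le_of_ne hbv (Ne.symm hne), hv⟩)
      rw [div_eq_mul_inv, Place.ord_mul v hW0 (inv_ne_zero hb0), Place.ord_inv, h0, neg_zero,
        add_zero]
      exact zl_ord_nonneg W.2 v hv
  have hint := zl_regInt y (W.1 / b.1) hreg
  obtain ⟨c, z', Y', hc0, hzz', hz', hY', hρ⟩ := hQ.2 (W.1 / b.1) (div_ne_zero hW0 hb0) hint
  obtain ⟨YW, hYW⟩ := hQ.1 W.1 W.2
  obtain ⟨Yb, hYb, hρb⟩ := hb
  have hρW : rho A YW ≠ 0 := by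
    intro h0
    exact heW (resA_of_mem_nonunits (evB hQ W.2 hYW h0 hP))
  have hWe : W.1 = algebraMap Kbar (FN N) c * (b.1 * z') := by
    have : W.1 = b.1 * (W.1 / b.1) := by field_simp
    rw [this, hzz']
    ring
  have hρbz : rho A (Yb * Y') ≠ 0 := by
    rw [rho_mul, hρb]
    exact mul_ne_zero hβ hρ
  obtain ⟨hcA, -⟩ := (hYb.mul hY').gauss_unit hYW hWe hρbz hρW
  apply heW
  have hWe' : W = ⟨algebraMap Kbar (FN N) c, algebraMap_mem_BY hcA⟩ * (b * ⟨z', hz'⟩) :=
    Subtype.ext hWe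
  rw [hWe', hmul, hmul, heb, zero_mul, mul_zero]

end Fermat.Agent.S43.G1.Form

end
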